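import Mathlib
import Fermat.Prelude.Def_EllipticCurve_FrobeniusTrace
import Fermat.Agent.S54.FrobExists
import Fermat.Agent.Lib.Cheb.Spec

/-!
# CHEB, piece F6 / BR2: the bridge from Galois number fields to `Gal(ℚ̄/ℚ)`

* `bridgeDivision : Spec.BridgeDivisionStatement` (Tier 1),
* `bridge : Spec.BridgeStatement` (Tier 2).

Both follow from `bridge_core`: a prime `P` of a Galois number field `L ⊆ ℚ̄` with trivial inertia
group and arithmetic Frobenius `τ` lies under a valuation subring `A` of `ℚ̄`, every Frobenius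
element at `A` restricts to `τ`, and the inertia group at `A` acts trivially on `L`.
-/

set_option autoImplicit false

open NumberField
open scoped Pointwise

namespace Fermat.Agent.Lib.Cheb.H116

open Fermat.Agent.Lib.Cheb.Spec (Qb GQ)
open Fermat.Agent.S54 (primeBelow mem_primeBelow)

/-- An automorphism of `ℚ̄` which fixes the prime of `ℤ̄` below a valuation subring `A` and
induces the `ℓ`-th power map modulo this prime is a Frobenius element at `A`. -/
theorem isFrobeniusAt_of_primeBelow (A : ValuationSubring Qb) (ℓ : ℕ) (hℓ : ℓ.Prime)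
    (hA : A.LiesOverPrime ℓ) (σ : GQ)
    (hσQ' : σ • primeBelow A = primeBelow A)
    (hσF : ∀ x : integralClosure ℤ Qb, σ • x - x ^ ℓ ∈ primeBelow A) :
    A.IsFrobeniusAt σ ℓ := by
  have : Algebra.IsAlgebraic ℚ Qb := AlgebraicClosure.isAlgebraic ℚ
  have hσQ : ∀ x, σ • x ∈ primeBelow A ↔ x ∈ primeBelow A := by
    intro x
    conv_lhs => rw [← hσQ']
    exact Ideal.smul_mem_pointwise_smul_iff
  have key : ∀ τ : GQ,
      (∀ x, τ • x ∈ primeBelow A ↔ x ∈ primeBelow A) → ∀ x ∈ A, τ x ∈ A := by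
    intro τ hτ x hx
    obtain ⟨b, s, hb, hs, hsA, hxs⟩ :=
      (Fermat.Agent.S54.mem_valuationSubring_iff A ℓ hℓ hA x).mp hx
    refine (Fermat.Agent.S54.mem_valuationSubring_iff A ℓ hℓ hA (τ x)).mpr
      ⟨τ b, τ s, hb.map τ, hs.map τ, ?_, ?_⟩
    · exact (hτ ⟨s, hs⟩).not.mpr hsA
    · rw [← map_mul, hxs]
  have hσA : σ ∈ A.decompositionSubgroup ℚ := by
    rw [MulAction.mem_stabilizer_iff]
    ext x
    rw [ValuationSubring.mem_smul_pointwise_iff_exists]
    constructor
    · rintro ⟨s, hs, rfl⟩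
      exact key σ hσQ s hs
    · intro hx
      refine ⟨σ⁻¹ • x, key σ⁻¹ ?_ x hx, by simp⟩
      intro y
      rw [← hσQ (σ⁻¹ • y)]
      simp
  refine ⟨hσA, ?_⟩
  intro x
  obtain ⟨a, rfl⟩ := IsLocalRing.residue_surjective x
  obtain ⟨b, s, hb, hs, hsA, hxs⟩ :=
    (Fermat.Agent.S54.mem_valuationSubring_iff A ℓ hℓ hA a).mp a.2
  have hbA : b ∈ A := Fermat.Agent.S54.isIntegral_mem_valuationSubring A hb
  have hsA' : s ∈ A := Fermat.Agent.S54.isIntegral_mem_valuationSubring A hs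
  have hint : ∀ (y : Qb) (hy : IsIntegral ℤ y),
      (⟨σ, hσA⟩ : A.decompositionSubgroup ℚ) •
        IsLocalRing.residue A ⟨y, Fermat.Agent.S54.isIntegral_mem_valuationSubring A hy⟩ =
      (IsLocalRing.residue A ⟨y, Fermat.Agent.S54.isIntegral_mem_valuationSubring A hy⟩) ^ ℓ := by
    intro y hy
    rw [← IsLocalRing.ResidueField.residue_smul, ← map_pow, ← sub_eq_zero, ← map_sub,
      IsLocalRing.residue_eq_zero_iff, ← ValuationSubring.coe_mem_nonunits_iff]
    exact hσF ⟨y, hy⟩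
  have h1 : IsLocalRing.residue A a * IsLocalRing.residue A ⟨s, hsA'⟩ =
      IsLocalRing.residue A ⟨b, hbA⟩ := by
    rw [← map_mul]
    congr 1
    exact Subtype.ext hxs
  have h2 : IsLocalRing.residue A ⟨s, hsA'⟩ ≠ 0 := by
    rw [Ne, IsLocalRing.residue_eq_zero_iff, ← ValuationSubring.coe_mem_nonunits_iff]
    exact hsA
  have h3 := congrArg (fun z => (⟨σ, hσA⟩ : A.decompositionSubgroup ℚ) • z) h1
  simp only [smul_mul'] at h3
  rw [hint s hs, hint b hb, ← h1, mul_pow] at h3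
  exact mul_right_cancel₀ (pow_ne_zero _ h2) h3

/-- Every valuation subring of `ℚ̄` over a prime number `ℓ` has a Frobenius element, which
moreover is congruent to the `ℓ`-th power map on all algebraic integers. -/
theorem exists_isFrobeniusAt (A : ValuationSubring Qb) (ℓ : ℕ) (hℓ : ℓ.Prime)
    (hA : A.LiesOverPrime ℓ) :
    ∃ φ : GQ, A.IsFrobeniusAt φ ℓ ∧ ∀ x : Qb, IsIntegral ℤ x → φ x - x ^ ℓ ∈ A.nonunits := by
  have := Fermat.Agent.S54.primeBelow_isPrime A
  have hℓQ : (ℓ : integralClosure ℤ Qb) ∈ primeBelow A := by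
    rw [mem_primeBelow]
    exact hA
  obtain ⟨σ, hσQ', hσF⟩ := Fermat.Agent.S54.exists_frob_integralClosure ℓ hℓ (primeBelow A) hℓQ
  refine ⟨σ, isFrobeniusAt_of_primeBelow A ℓ hℓ hA σ hσQ' hσF, fun x hx => ?_⟩
  exact hσF ⟨x, hx⟩

/-- The algebraic integers of a subfield of `ℚ̄` are algebraic integers of `ℚ̄`. -/
theorem isIntegral_coe_ringOfIntegers (L : IntermediateField ℚ Qb) (x : 𝓞 L) :
    IsIntegral ℤ ((x : L) : Qb) :=
  (NumberField.RingOfIntegers.isIntegral_coe x).map (IsScalarTower.toAlgHom ℤ L Qb)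

/-- Every maximal ideal of the ring of integers of a subfield of `ℚ̄` is the contraction of the
maximal ideal of a valuation subring of `ℚ̄`. -/
theorem exists_valuationSubring_over (L : IntermediateField ℚ Qb)
    (P : Ideal (𝓞 L)) (hP : P.IsMaximal) :
    ∃ A : ValuationSubring Qb, ∀ x : 𝓞 L, x ∈ P ↔ ((x : L) : Qb) ∈ A.nonunits := by
  let f : 𝓞 L →+* Qb := (algebraMap L Qb).comp (algebraMap (𝓞 L) L)
  have hf : Function.Injective f :=
    (algebraMap L Qb).injective.comp NumberField.RingOfIntegers.coe_injective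
  have hfx : ∀ x : 𝓞 L, f x = ((x : L) : Qb) := fun x => rfl
  let g : 𝓞 L →+* f.range := f.rangeRestrict
  have hI : P.map g ≠ ⊤ := by
    intro h
    have h1 : (1 : f.range) ∈ P.map g := by rw [h]; trivial
    obtain ⟨x, hx, hx1⟩ := (Ideal.mem_map_iff_of_surjective g f.rangeRestrict_surjective).mp h1
    have h2 : f x = f 1 := by
      have := congrArg Subtype.val hx1
      simpa [g] using this
    rw [hf h2] at hx
    exact hP.ne_top ((Ideal.eq_top_iff_one P).mpr hx)
  obtain ⟨B, -, hB⟩ := Ideal.image_subset_nonunits_valuationSubring _ hI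
  refine ⟨B, fun x => ⟨fun hx => ?_, fun hx => ?_⟩⟩
  · exact hB ⟨g x, Ideal.mem_map_of_mem g hx, rfl⟩
  · by_contra hxP
    obtain ⟨y, i, hi, hyx⟩ := hP.exists_inv hxP
    have h1 : f y * f x + f i = 1 := by rw [← map_mul, ← map_add, hyx, map_one]
    have h2 : f y * f x ∈ B.nonunits := by
      have hyB : f y ∈ B :=
        Fermat.Agent.S54.isIntegral_mem_valuationSubring B (isIntegral_coe_ringOfIntegers L y)
      have := ValuationSubring.mem_nonunits_iff_exists_mem_maximalIdeal.mp hx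
      obtain ⟨hx1, hx2⟩ := this
      have := Ideal.mul_mem_left _ (⟨f y, hyB⟩ : B) hx2
      exact ValuationSubring.mem_nonunits_iff_exists_mem_maximalIdeal.mpr ⟨_, this⟩
    have h3 : f i ∈ B.nonunits := hB ⟨g i, Ideal.mem_map_of_mem g hi, rfl⟩
    have h4 : (1 : Qb) ∈ B.nonunits := by
      rw [← h1]
      exact B.nonunits.add_mem h2 h3
    rw [ValuationSubring.mem_nonunits_iff] at h4
    simp at h4

/-- Elements of the inertia group at `A` are congruent to the identity on `A`. -/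
theorem inertia_sub_mem_nonunits (A : ValuationSubring Qb) (ι : GQ)
    (hι : ι ∈ A.inertiaSubgroupIn ℚ) (x : Qb) (hx : x ∈ A) : ι x - x ∈ A.nonunits := by
  obtain ⟨ι', hι', rfl⟩ := Subgroup.mem_map.mp hι
  have h1 : MulSemiringAction.toRingAut (A.decompositionSubgroup ℚ)
      (IsLocalRing.ResidueField A) ι' = 1 := MonoidHom.mem_ker.mp hι'
  have h2 : ι' • IsLocalRing.residue A ⟨x, hx⟩ = IsLocalRing.residue A ⟨x, hx⟩ := by
    have := congrArg (fun e : RingAut (IsLocalRing.ResidueField A) =>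
      e (IsLocalRing.residue A ⟨x, hx⟩)) h1
    simpa using this
  rw [← IsLocalRing.ResidueField.residue_smul, ← sub_eq_zero, ← map_sub,
    IsLocalRing.residue_eq_zero_iff, ← ValuationSubring.coe_mem_nonunits_iff] at h2
  exact h2

theorem coe_smul_ringOfIntegers (L : IntermediateField ℚ Qb) (ι : L ≃ₐ[ℚ] L) (x : 𝓞 L) :
    ((ι • x : 𝓞 L) : L) = ι (x : L) := rfl

theorem coe_restrictNormalHom (L : IntermediateField ℚ Qb) [Normal ℚ L] (ι : GQ) (x : L) :
    ((AlgEquiv.restrictNormalHom L ι x : L) : Qb) = ι (x : Qb) :=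
  AlgEquiv.restrictNormal_commutes ι L x

theorem coe_restrict_smul (L : IntermediateField ℚ Qb) [Normal ℚ L] (ι : GQ) (x : 𝓞 L) :
    (((AlgEquiv.restrictNormalHom L ι • x : 𝓞 L) : L) : Qb) = ι ((x : L) : Qb) := by
  rw [coe_smul_ringOfIntegers]
  exact coe_restrictNormalHom L ι (x : L)

theorem card_quotient_under (L : IntermediateField ℚ Qb)
    (p : ℕ) (hp : p.Prime) (P : Ideal (𝓞 L)) (hP : P.IsPrime) (hpP : (p : 𝓞 L) ∈ P) :
    Nat.card (ℤ ⧸ P.under ℤ) = p := by
  have : Fact p.Prime := ⟨hp⟩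
  have h1 : Ideal.span {(p : ℤ)} ≤ P.under ℤ := by
    rw [Ideal.span_singleton_le_iff_mem, Ideal.mem_comap]
    simpa using hpP
  have h2 : Ideal.span {(p : ℤ)} = P.under ℤ :=
    (Int.ideal_span_isMaximal_of_prime p).eq_of_le (Ideal.IsPrime.under ℤ P).ne_top h1
  rw [← h2]
  exact Int.card_ideal_quot p

theorem bridge_core (L : IntermediateField ℚ Qb) [NumberField L] [IsGalois ℚ L]
    (p : ℕ) (hp : p.Prime) (P : Ideal (𝓞 L)) (hP : P.IsPrime) (hpP : (p : 𝓞 L) ∈ P)
    (hI : Spec.InertiaTrivial L P) (τ : L ≃ₐ[ℚ] L) (hτ : IsArithFrobAt ℤ τ P) :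
    ∃ (A : ValuationSubring Qb) (φ : GQ), A.LiesOverPrime p ∧ A.IsFrobeniusAt φ p ∧
      (∀ ι ∈ A.inertiaSubgroupIn ℚ, AlgEquiv.restrictNormalHom L ι = 1) ∧
      AlgEquiv.restrictNormalHom L φ = τ := by
  have hP0 : P ≠ ⊥ := by
    intro h
    rw [h, Ideal.mem_bot] at hpP
    exact hp.ne_zero (by exact_mod_cast hpP)
  have hPmax : P.IsMaximal := hP.isMaximal hP0
  obtain ⟨A, hA⟩ := exists_valuationSubring_over L P hPmax
  have hAp : A.LiesOverPrime p := by
    have h1 := (hA (p : 𝓞 L)).mp hpP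
    have h2 : (p : Qb) ∈ A.nonunits := by simpa using h1
    exact h2
  obtain ⟨φ, hφ, hφF⟩ := exists_isFrobeniusAt A p hp hAp
  have hN : Nat.card (ℤ ⧸ P.under ℤ) = p := card_quotient_under L p hp P hP hpP
  have key : ∀ ι : GQ, (∀ x : 𝓞 L, ι ((x : L) : Qb) - ((x : L) : Qb) ∈ A.nonunits) →
      AlgEquiv.restrictNormalHom L ι = 1 := by
    intro ι h
    apply hI
    intro x
    rw [hA]
    have := h x
    rw [← coe_restrict_smul] at this
    simpa using this
  have hτF : ∀ x : 𝓞 L, ((τ (x : L) : L) : Qb) - ((x : L) : Qb) ^ p ∈ A.nonunits := by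
    intro x
    have h1 : τ • x - x ^ p ∈ P := by
      have := hτ x
      rwa [hN] at this
    rw [hA] at h1
    have e : (((τ • x - x ^ p : 𝓞 L) : L) : Qb) = ((τ (x : L) : L) : Qb) - ((x : L) : Qb) ^ p := by
      simp [coe_smul_ringOfIntegers]
    rwa [e] at h1
  have hφτ : ∀ x : 𝓞 L, φ ((x : L) : Qb) - ((τ (x : L) : L) : Qb) ∈ A.nonunits := by
    intro x
    have h1 := hφF _ (isIntegral_coe_ringOfIntegers L x)
    have h2 := hτF x
    have := A.nonunits.sub_mem h1 h2
    simpa using this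
  refine ⟨A, φ, hAp, hφ, ?_, ?_⟩
  · intro ι hι
    exact key ι (fun y => inertia_sub_mem_nonunits A ι hι _
      (Fermat.Agent.S54.isIntegral_mem_valuationSubring A (isIntegral_coe_ringOfIntegers L y)))
  · have h1 : AlgEquiv.restrictNormalHom L φ * τ⁻¹ = 1 := by
      apply hI
      intro x
      rw [hA]
      have h2 := hφτ (τ⁻¹ • x)
      rw [← coe_restrict_smul] at h2
      have e : (((((AlgEquiv.restrictNormalHom L φ * τ⁻¹) • x - x : 𝓞 L)) : L) : Qb) =
          (((AlgEquiv.restrictNormalHom L φ • (τ⁻¹ • x) : 𝓞 L) : L) : Qb) -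
            ((τ ((τ⁻¹ • x : 𝓞 L) : L) : L) : Qb) := by
        simp [mul_smul, coe_smul_ringOfIntegers]
      rwa [e]
    rw [mul_inv_eq_one] at h1
    exact h1


/-- Application of a restriction which is trivial. -/
theorem apply_eq_of_restrict_eq_one (L : IntermediateField ℚ Qb) [Normal ℚ L] (ι : GQ)
    (h : AlgEquiv.restrictNormalHom L ι = 1) (x : Qb) (hx : x ∈ L) : ι x = x := by
  have h2 := coe_restrictNormalHom L ι ⟨x, hx⟩
  rw [h] at h2
  simpa using h2.symm

theorem apply_eq_of_restrict_eq (L : IntermediateField ℚ Qb) [Normal ℚ L] (ι κ : GQ)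
    (h : AlgEquiv.restrictNormalHom L ι = AlgEquiv.restrictNormalHom L κ) (x : Qb) (hx : x ∈ L) :
    ι x = κ x := by
  rw [← coe_restrictNormalHom L ι ⟨x, hx⟩, ← coe_restrictNormalHom L κ ⟨x, hx⟩, h]

/-- The Galois closure in `ℚ̄` of a finite extension of `ℚ`, as a Galois number field. -/
theorem exists_galois_numberField (E : IntermediateField ℚ Qb) (hE : FiniteDimensional ℚ E) :
    ∃ (L : IntermediateField ℚ Qb) (_ : NumberField L) (_ : IsGalois ℚ L), E ≤ L := by
  have : Algebra.IsAlgebraic ℚ Qb := AlgebraicClosure.isAlgebraic ℚ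
  have : IsAlgClosure ℚ Qb := ⟨inferInstance, inferInstance⟩
  have : Normal ℚ Qb := IsAlgClosure.normal ℚ Qb
  refine ⟨IntermediateField.normalClosure ℚ E Qb, ?_, ?_, IntermediateField.le_normalClosure E⟩
  · have h : FiniteDimensional ℚ (IntermediateField.normalClosure ℚ E Qb) :=
      normalClosure.is_finiteDimensional ℚ E Qb
    exact { to_charZero := inferInstance, to_finiteDimensional := h }
  · have h : Normal ℚ (IntermediateField.normalClosure ℚ E Qb) :=
      normalClosure.normal ℚ E Qb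
    have h' : Algebra.IsSeparable ℚ (IntermediateField.normalClosure ℚ E Qb) :=
      inferInstance
    exact isGalois_iff.mpr ⟨h', h⟩

/-- **F6 / W5**: the bridge for the Frobenius density theorem. -/
theorem bridgeDivision : Spec.BridgeDivisionStatement := by
  intro hM E hE σ S
  obtain ⟨L, hL1, hL2, hEL⟩ := exists_galois_numberField E hE
  obtain ⟨p, P, τ, hp, hpS, hP, hpP, hI, hτ, hz⟩ := hM L (AlgEquiv.restrictNormalHom L σ) S
  obtain ⟨A, φ, hA, hφ, hin, hφτ⟩ := bridge_core L p hp P hP hpP hI τ hτ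
  have hfin : Finite (L ≃ₐ[ℚ] L) := inferInstance
  obtain ⟨k, hk⟩ : ∃ k : ℕ, (AlgEquiv.restrictNormalHom L σ) ^ k = τ := by
    have h1 : τ ∈ Subgroup.zpowers (AlgEquiv.restrictNormalHom L σ) := by
      rw [← hz]; exact Subgroup.mem_zpowers τ
    exact (Submonoid.mem_powers_iff _ _).mp (mem_powers_iff_mem_zpowers.mpr h1)
  obtain ⟨j, hj⟩ : ∃ j : ℕ, τ ^ j = AlgEquiv.restrictNormalHom L σ := by
    have h1 : AlgEquiv.restrictNormalHom L σ ∈ Subgroup.zpowers τ := by
      rw [hz]; exact Subgroup.mem_zpowers _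
    exact (Submonoid.mem_powers_iff _ _).mp (mem_powers_iff_mem_zpowers.mpr h1)
  refine ⟨p, A, φ, k, j, hp, hpS, hA, hφ, ?_, ?_, ?_⟩
  · intro ι hι x hx
    exact apply_eq_of_restrict_eq_one L ι (hin ι hι) x (hEL hx)
  · intro x hx
    refine apply_eq_of_restrict_eq L φ (σ ^ k) ?_ x (hEL hx)
    rw [hφτ, map_pow, hk]
  · intro x hx
    refine apply_eq_of_restrict_eq L (φ ^ j) σ ?_ x (hEL hx)
    rw [map_pow, hφτ, hj]

/-- **BR2**: the bridge for the exact qualitative Chebotarev theorem. -/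
theorem bridge : Spec.BridgeStatement := by
  intro hM E hE σ S
  obtain ⟨L, hL1, hL2, hEL⟩ := exists_galois_numberField E hE
  obtain ⟨p, P, hp, hpS, hP, hpP, hI, hτ⟩ := hM L (AlgEquiv.restrictNormalHom L σ) S
  obtain ⟨A, φ, hA, hφ, hin, hφτ⟩ :=
    bridge_core L p hp P hP hpP hI (AlgEquiv.restrictNormalHom L σ) hτ
  refine ⟨p, A, φ, hp, hpS, hA, hφ, ?_, ?_⟩
  · intro ι hι x hx
    exact apply_eq_of_restrict_eq_one L ι (hin ι hι) x (hEL hx)
  · intro x hx
    exact apply_eq_of_restrict_eq L φ σ hφτ x (hEL hx)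

end Fermat.Agent.Lib.Cheb.H116
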