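import Mathlib
import Fermat.Agent.Lib.Cheb.SpecQ2
import Fermat.Agent.Lib.Cheb.DensityBasic
import Fermat.Agent.Lib.Cheb.H116.Bridge

/-!
# CHEB-Q, piece Q-BR: the bridge for the Chebotarev density theorem

`bridgeDensitySet : SpecQ.BridgeDensitySetStatement`, i.e.
`SpecQ.ChebDensitySetStatement → SpecQ.ChebDensityStatement`: from subsets of the Galois group of
a Galois number field to homomorphisms on `Gal(ℚ̄/ℚ)` which factor through a finite extension.
-/

set_option autoImplicit false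

open NumberField
open scoped Pointwise

namespace Fermat.Agent.Lib.Cheb.H116

open Fermat.Agent.Lib.Cheb.Spec (Qb GQ)
open Fermat.Agent.Lib.Cheb

/-- The preimage of a set under a group homomorphism is in bijection with the product of the
part of the set inside the range and the kernel. -/
theorem card_preimage_eq {Γ G : Type*} [Group Γ] [Group G] (f : Γ →* G) (C : Set G) :
    Nat.card ↥(f ⁻¹' C) = Nat.card ↥(C ∩ Set.range f) * Nat.card f.ker := by
  classical
  rw [← Nat.card_prod]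
  have hs : ∀ y : ↥(C ∩ Set.range f), ∃ g : Γ, f g = y := fun y => y.2.2
  choose s hs using hs
  refine Nat.card_congr
    { toFun := fun g => (⟨f g, g.2, ⟨g, rfl⟩⟩, ⟨(s ⟨f g, g.2, ⟨g, rfl⟩⟩)⁻¹ * g, ?_⟩)
      invFun := fun yk => ⟨s yk.1 * yk.2, ?_⟩
      left_inv := ?_
      right_inv := ?_ }
  · rw [MonoidHom.mem_ker, map_mul, map_inv, hs]
    exact inv_mul_cancel _
  · rw [Set.mem_preimage, map_mul, hs, MonoidHom.mem_ker.mp yk.2.2, mul_one]
    exact yk.1.2.1
  · intro g
    apply Subtype.ext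
    simp
  · rintro ⟨y, k⟩
    have hy : f (s y * k) = y := by rw [map_mul, hs, MonoidHom.mem_ker.mp k.2, mul_one]
    have hy' : (⟨f (s y * (k : Γ)), by rw [hy]; exact y.2⟩ : ↥(C ∩ Set.range f)) = y :=
      Subtype.ext hy
    apply Prod.ext
    · exact hy'
    · apply Subtype.ext
      simp only
      rw [hy']
      simp

/-- Density of a preimage: `|f⁻¹ C| / |Γ| = |C ∩ im f| / |im f|` for a finite group `Γ`. -/
theorem card_preimage_div {Γ G : Type*} [Group Γ] [Finite Γ] [Group G] (f : Γ →* G)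
    (C : Set G) :
    (Nat.card ↥(f ⁻¹' C) : ℝ) / (Nat.card Γ : ℝ) =
      (Nat.card ↥(C ∩ Set.range f) : ℝ) / (Nat.card ↥(Set.range f) : ℝ) := by
  have h1 := card_preimage_eq f C
  have h2 := card_preimage_eq f Set.univ
  have h3 : Nat.card ↥(f ⁻¹' Set.univ) = Nat.card Γ := by
    rw [Set.preimage_univ]
    exact Nat.card_congr (Equiv.Set.univ Γ)
  have h4 : Nat.card ↥(Set.univ ∩ Set.range f) = Nat.card ↥(Set.range f) := by
    rw [Set.univ_inter]
  rw [h3, h4] at h2
  have hk : (Nat.card f.ker : ℝ) ≠ 0 := by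
    have : Nat.card f.ker ≠ 0 := Nat.card_pos.ne'
    exact_mod_cast this
  rw [h1, h2]
  push_cast
  rw [mul_div_mul_right _ _ hk]

/-- **Q-BR**: the bridge for the Chebotarev density theorem. -/
theorem bridgeDensitySet : SpecQ.BridgeDensitySetStatement := by
  intro hSet G _ ρ E hE hρ C S
  obtain ⟨L, hL1, hL2, hEL⟩ := exists_galois_numberField E hE
  have : Algebra.IsAlgebraic ℚ Qb := AlgebraicClosure.isAlgebraic ℚ
  have : IsAlgClosure ℚ Qb := ⟨inferInstance, inferInstance⟩
  have : Normal ℚ Qb := IsAlgClosure.normal ℚ Qb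
  have hres : Function.Surjective (AlgEquiv.restrictNormalHom (F := ℚ) (K₁ := Qb) L) :=
    AlgEquiv.restrictNormalHom_surjective Qb
  have hker : ∀ σ : GQ, AlgEquiv.restrictNormalHom L σ = 1 → ρ σ = 1 := fun σ h =>
    hρ σ (fun x hx => apply_eq_of_restrict_eq_one L σ h x (hEL hx))
  -- the induced homomorphism on `Gal(L/ℚ)`
  let f : (L ≃ₐ[ℚ] L) →* G :=
    MonoidHom.liftOfRightInverse (AlgEquiv.restrictNormalHom L) (Function.surjInv hres)
      (Function.rightInverse_surjInv hres)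
      ⟨ρ, fun σ hσ => MonoidHom.mem_ker.mpr (hker σ (MonoidHom.mem_ker.mp hσ))⟩
  have hf : ∀ σ : GQ, f (AlgEquiv.restrictNormalHom L σ) = ρ σ := fun σ =>
    MonoidHom.liftOfRightInverse_comp_apply _ _ _ _ σ
  have hrange : Set.range f = Set.range ρ := by
    ext y
    constructor
    · rintro ⟨g, rfl⟩
      obtain ⟨σ, rfl⟩ := hres g
      exact ⟨σ, (hf σ).symm⟩
    · rintro ⟨σ, rfl⟩
      exact ⟨_, hf σ⟩
  have hdens := hSet L (f ⁻¹' C)
  rw [card_preimage_div f C, hrange] at hdens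
  refine (hdens.diff_finset S).mono ?_
  rintro p ⟨⟨g, hgC, hp, P, hP, hpP, hI, hF⟩, hpS⟩
  obtain ⟨A, φ, hA, hφ, hin, hφg⟩ := bridge_core L p hp P hP hpP hI g hF
  refine ⟨hp, hpS, A, φ, hA, hφ, fun ι hι => hker ι (hin ι hι), ?_⟩
  rw [← hf φ, hφg]
  exact hgC

end Fermat.Agent.Lib.Cheb.H116
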